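import Mathlib
import Fermat.Agent.LT.Descent.Ops

set_option autoImplicit false

/-!
# Operators on the finite cosets and invariant kernels on the space
-/

noncomputable section

open MeasureTheory NumberField IsDedekindDomain
open scoped ComplexConjugate MatrixGroups ENNReal

namespace FermatAgent.LT

namespace H3

/-- The indicator kernel of the balls of radius `ε`. -/
def ballKer (ε : ℝ) (P Q : H3) : ℂ := (ball P ε).indicator (fun _ => (1 : ℂ)) Q

/-- Products of ball kernels, ending with the unit ball. -/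
def ballWord : List ℝ → H3 → H3 → ℂ
  | [] => ballKer 1
  | ε :: l => kConv (ballKer ε) (ballWord l)

end H3

variable {L : Type*} [Field L] [NumberField L] {𝔫 : Ideal (𝓞 L)}

/-- An operator on functions of the cosets given by a finitely supported equivariant matrix. -/
structure IsCosetOp (T : Module.End ℂ (Cosets 𝔫 → ℂ)) : Prop where
  equivariant : ∀ (g : GAf L) (f : Cosets 𝔫 → ℂ) (q : Cosets 𝔫),
    T (fun p => f (g • p)) q = T f (g • q)
  row : ∀ a, (Function.support fun b => finKer T a b).Finite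
  col : ∀ b, (Function.support fun a => finKer T a b).Finite
  expand : ∀ f a, T f a = ∑ᶠ b, finKer T a b * f b

/-- Hermitian matrices. -/
def IsHermOp (T : Module.End ℂ (Cosets 𝔫 → ℂ)) : Prop :=
  ∀ a b, conj (finKer T a b) = finKer T b a

/-- The values of `T` have vanishing sums over the residual translations at `v`. -/
def IsCuspOpAt (v : HeightOneSpectrum (𝓞 L)) (T : Module.End ℂ (Cosets 𝔫 → ℂ)) : Prop :=
  ∀ f : Cosets 𝔫 → ℂ, IsCuspidalAt v fun _ g => T f (g : Cosets 𝔫)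

/-- An invariant kernel on the space: measurable, bounded, of bounded absolute integrals, supported
at bounded distance and at finitely many cosets. -/
structure IsYKernel (k : YSpace 𝔫 → YSpace 𝔫 → ℂ) : Prop where
  measurable : Measurable (Function.uncurry k)
  invariant : ∀ (γ : PGL(2, L)) y y', k (γ • y) (γ • y') = k y y'
  bounded : ∃ C : ℝ, ∀ y y', ‖k y y'‖ ≤ C
  row : ∃ V : ℝ, ∀ y, ∫⁻ u, ‖k y u‖ₑ ∂(yVol 𝔫) ≤ ENNReal.ofReal V
  col : ∃ V : ℝ, ∀ y, ∫⁻ u, ‖k u y‖ₑ ∂(yVol 𝔫) ≤ ENNReal.ofReal V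
  supp : ∃ R : ℝ, ∀ y y', k y y' ≠ 0 → ∀ w, H3.coshDist (y.1 w) (y'.1 w) ≤ R
  fin : ∀ q : Cosets 𝔫, ∃ s : Set (Cosets 𝔫), s.Finite ∧
    ∀ y y', k y y' ≠ 0 → (y.2 = q → y'.2 ∈ s) ∧ (y'.2 = q → y.2 ∈ s)

/-- The composition of kernels on the space. -/
def yConv (k k' : YSpace 𝔫 → YSpace 𝔫 → ℂ) (y y' : YSpace 𝔫) : ℂ :=
  ∫ u, k y u * k' u y' ∂(yVol 𝔫)

/-- The operator of a kernel. -/
def yOp (k : YSpace 𝔫 → YSpace 𝔫 → ℂ) (Φ : YSpace 𝔫 → ℂ) (y : YSpace 𝔫) : ℂ :=
  ∫ u, k y u * Φ u ∂(yVol 𝔫)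

/-- The powers of a kernel; `yPow k m` has `m + 1` factors. -/
def yPow (k : YSpace 𝔫 → YSpace 𝔫 → ℂ) : ℕ → YSpace 𝔫 → YSpace 𝔫 → ℂ
  | 0 => k
  | m + 1 => yConv k (yPow k m)

end FermatAgent.LT
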