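import Mathlib
import Fermat.Agent.LT.Descent.Kernel.Defs
import Fermat.Agent.LT.Descent.Kernel.CosetOp.Gal

set_option autoImplicit false

/-!
# Hecke operators and projections of the level on functions of the finite cosets
-/

noncomputable section

open MeasureTheory NumberField IsDedekindDomain
open scoped ComplexConjugate MatrixGroups

namespace FermatAgent.LT

variable {L : Type*} [Field L] [NumberField L] {𝔫 : Ideal (𝓞 L)}

variable (h𝔫 : 𝔫 ≠ ⊥)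
include h𝔫

theorem heckeOp_mk {v : HeightOneSpectrum (𝓞 L)} (hv : ¬ 𝔫 ≤ v.asIdeal) (f : Cosets 𝔫 → ℂ)
    (g : GAf L) (x : XInf L) :
    heckeOp 𝔫 v f (g : Cosets 𝔫) = heckeT v (fun _ g => f (g : Cosets 𝔫)) x g := by
  have : Finite (𝓞 L ⧸ v.asIdeal) := Ideal.finiteQuotientOfFreeOfNeBot _ v.ne_bot
  let _ := Fintype.ofFinite (𝓞 L ⧸ v.asIdeal)
  rw [CO.heckeOp_apply h𝔫 hv, heckeT, finsum_eq_sum_of_fintype, Fintype.sum_option, add_comm]
  rfl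

section Level

variable {s : Finset (HeightOneSpectrum (𝓞 L))}
  {ψ : ∀ v : HeightOneSpectrum (𝓞 L), AddChar (𝓞 L ⧸ v.asIdeal) ℂ}
  (hs : ∀ v ∈ s, 𝔫 ≤ v.asIdeal ∧ ¬ 𝔫 ≤ v.asIdeal ^ 2)
  (h3 : ∀ v ∈ s, (3 : 𝓞 L) ∈ v.asIdeal → Nat.card (𝓞 L ⧸ v.asIdeal) = 3)
include hs h3

theorem isCosetOp_levelOp : IsCosetOp (levelOp 𝔫 s ψ) := by
  rw [CO.levelOp_eq_prod]
  refine CO.list_prod_coset _ fun x hx => ?_
  obtain ⟨v, hv, rfl⟩ := List.mem_map.mp hx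
  exact (CO.goodAt h𝔫 hs h3 (Finset.mem_toList.mp hv)).isCosetOp

theorem isHermOp_levelOp : IsHermOp (levelOp 𝔫 s ψ) := by
  rw [CO.levelOp_eq_prod]
  refine CO.list_prod_herm _ ?_ ?_ ?_ <;> simp only [List.forall_mem_map, Finset.mem_toList]
  · exact fun v hv => (CO.goodAt h𝔫 hs h3 hv).isCosetOp
  · exact fun v hv => (CO.goodAt h𝔫 hs h3 hv).isHermOp
  · exact fun v hv w hw => CO.commute_levFac (CO.goodAt h𝔫 hs h3 hv) (CO.goodAt h𝔫 hs h3 hw)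

theorem levelOp_idem : levelOp 𝔫 s ψ * levelOp 𝔫 s ψ = levelOp 𝔫 s ψ := by
  rw [CO.levelOp_eq_prod]
  refine CO.list_prod_idem _ ?_ ?_ <;> simp only [List.forall_mem_map, Finset.mem_toList]
  · exact fun v hv => (CO.goodAt h𝔫 hs h3 hv).idem
  · exact fun v hv w hw => CO.commute_levFac (CO.goodAt h𝔫 hs h3 hv) (CO.goodAt h𝔫 hs h3 hw)

theorem commute_levelOp_heckeOp {v : HeightOneSpectrum (𝓞 L)} (hv : ¬ 𝔫 ≤ v.asIdeal) :
    Commute (levelOp 𝔫 s ψ) (heckeOp 𝔫 v) := by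
  rw [CO.levelOp_eq_prod]
  refine Commute.list_prod_left _ _ fun x hx => ?_
  obtain ⟨w, hw, rfl⟩ := List.mem_map.mp hx
  exact (CO.goodAt h𝔫 hs h3 (Finset.mem_toList.mp hw)).commute_hecke hv

theorem isPsiAt_levelOp {v : HeightOneSpectrum (𝓞 L)} (hv : v ∈ s) (f : Cosets 𝔫 → ℂ) :
    IsPsiAt v (ψ v) fun _ g => levelOp 𝔫 s ψ f (g : Cosets 𝔫) := by
  obtain ⟨R, hR⟩ := CO.levelOp_split (ψ := ψ) (fun w hw => CO.goodAt h𝔫 hs h3 hw) hv
  have hg := CO.goodAt h𝔫 hs h3 hv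
  intro x g b
  simp only
  rw [CO.transl_eq, ← CO.locR_mk h𝔫 (CO.tMat_mem b) (levelOp 𝔫 s ψ f) g, CO.locR_tMat h𝔫 hg.lvl_le, hR,
    ← Module.End.mul_apply, ← mul_assoc, hg.tau_mul_levFac, smul_mul_assoc]
  rfl

theorem isCuspOpAt_levelOp {v : HeightOneSpectrum (𝓞 L)} (hv : v ∈ s) (hv3 : (3 : 𝓞 L) ∈ v.asIdeal)
    (hψ : ψ v ≠ 1) : IsCuspOpAt v (levelOp 𝔫 s ψ) := by
  have : Finite (𝓞 L ⧸ v.asIdeal) := Ideal.finiteQuotientOfFreeOfNeBot _ v.ne_bot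
  let _ := Fintype.ofFinite (𝓞 L ⧸ v.asIdeal)
  obtain ⟨R, hR⟩ := CO.levelOp_split (ψ := ψ) (fun w hw => CO.goodAt h𝔫 hs h3 hw) hv
  have hg := CO.goodAt h𝔫 hs h3 hv
  intro f x g k
  set M := Matrix.GeneralLinearGroup.map (v.adicCompletionIntegers L).subtype k with hM
  have mM : M ∈ CO.locCongr v 0 := CO.mem_locCongr_zero.mpr
    ⟨CO.smallM_of_le_one fun i j => (k i j).2, CO.smallM_of_le_one fun i j => by
      rw [hM, ← map_inv]; exact ((k⁻¹ : GL (Fin 2) _) i j).2⟩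
  have h0 : (∑ y, CO.tau 𝔫 v y) * CO.locR 𝔫 v M * levelOp 𝔫 s ψ = 0 := by
    rw [hR, ← mul_assoc, hg.sum_mul_locR_mul hv3 hψ mM, zero_mul]
  have h1 := congrFun (LinearMap.congr_fun h0 f) (g : Cosets 𝔫)
  simp only [Module.End.mul_apply, LinearMap.sum_apply, Finset.sum_apply, CO.tau,
    CO.locR_mk h𝔫 (CO.tMat_mem _), CO.locR_mk h𝔫 mM, LinearMap.zero_apply, Pi.zero_apply] at h1
  rw [finsum_eq_sum_of_fintype]
  exact h1

theorem levelOp_eq_self {f : Cosets 𝔫 → ℂ}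
    (hψ : ∀ v ∈ s, IsPsiAt v (ψ v) fun _ g => f (g : Cosets 𝔫))
    (hne : ∀ v ∈ s, (3 : 𝓞 L) ∈ v.asIdeal → ψ v ≠ 1)
    (hc : ∀ v ∈ s, (3 : 𝓞 L) ∈ v.asIdeal → IsCuspidalAt v fun _ g => f (g : Cosets 𝔫)) :
    levelOp 𝔫 s ψ f = f := by
  rw [CO.levelOp_eq_prod]
  refine CO.apply_list_prod_eq _ _ fun v hv => ?_
  rw [Finset.mem_toList] at hv
  exact (CO.goodAt h𝔫 hs h3 hv).levFac_eq_self (hψ v hv) (hne v hv) (hc v hv)

theorem levelOp_galCoset {σ : L ≃+* L} (hσ : 𝔫.map (galInt σ) = 𝔫)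
    (hψ : ∀ v ∈ s, galPlace σ v ∈ s ∧
      ∀ b, ψ (galPlace σ v) (Ideal.Quotient.mk _ b) = ψ v (Ideal.Quotient.mk _ (galInt σ b)))
    (f : Cosets 𝔫 → ℂ) :
    levelOp 𝔫 s ψ (f ∘ galCoset σ) = levelOp 𝔫 s ψ f ∘ galCoset σ := by
  classical
  rw [CO.levelOp_eq_prod]
  have hmap : (s.toList.map (galPlace σ)).Perm s.toList := by
    refine List.perm_of_nodup_nodup_toFinset_eq (s.nodup_toList.map (galPlace_injective σ))
      s.nodup_toList ?_
    refine Finset.eq_of_subset_of_card_le (fun u hu => ?_) ?_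
    · obtain ⟨v, hv, rfl⟩ := List.mem_map.mp (List.mem_toFinset.mp hu)
      exact List.mem_toFinset.mpr (Finset.mem_toList.mpr (hψ v (Finset.mem_toList.mp hv)).1)
    · rw [List.toFinset_card_of_nodup (s.nodup_toList.map (galPlace_injective σ)), List.length_map,
        Finset.toList_toFinset, Finset.length_toList]
  have hc : ((s.toList.map (galPlace σ)).map (CO.levFac 𝔫 ψ)).prod =
      (s.toList.map (CO.levFac 𝔫 ψ)).prod := by
    refine List.Perm.prod_eq' (hmap.map _) ?_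
    refine List.Pairwise.map _ (fun a b hab => hab) ?_
    exact List.Pairwise.imp_of_mem (R := fun _ _ => True)
      (fun {a b} ha hb _ => by
        obtain ⟨a', ha', rfl⟩ := List.mem_map.mp ha
        obtain ⟨b', hb', rfl⟩ := List.mem_map.mp hb
        exact CO.commute_levFac (CO.goodAt h𝔫 hs h3 (hψ a' (Finset.mem_toList.mp ha')).1)
          (CO.goodAt h𝔫 hs h3 (hψ b' (Finset.mem_toList.mp hb')).1))
      (List.pairwise_of_forall fun _ _ => trivial)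
  conv_lhs => rw [← hc]
  clear hc hmap
  suffices key : ∀ l : List (HeightOneSpectrum (𝓞 L)), (∀ v ∈ l, v ∈ s) →
      ((l.map (galPlace σ)).map (CO.levFac 𝔫 ψ)).prod (f ∘ galCoset σ) =
        (l.map (CO.levFac 𝔫 ψ)).prod f ∘ galCoset σ from key _ fun v hv => Finset.mem_toList.mp hv
  intro l hl
  induction l with
  | nil => rfl
  | cons a l ih =>
    simp only [List.map_cons, List.prod_cons, Module.End.mul_apply]
    rw [ih fun v hv => hl v (by simp [hv]),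
      CO.levFac_galCoset a h𝔫 hσ (CO.goodAt h𝔫 hs h3 (hl a (by simp))) (hψ a (hl a (by simp))).2]

end Level

end FermatAgent.LT
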