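import Mathlib
import Fermat.Agent.LT.Base.Space
import Fermat.Agent.LT.Descent.Ops
import Fermat.Agent.LT.Lift.Ode

set_option autoImplicit false

/-!
# Invariant kernels on hyperbolic space
-/

noncomputable section

open MeasureTheory Set Filter
open scoped ComplexConjugate ENNReal Matrix

namespace FermatAgent.LT

namespace H3

theorem coshDist_toLift (P Q : H3) : Lift.coshDist (toLift P) (toLift Q) = coshDist P Q := by
  rw [Lift.coshDist_eq]; rfl

theorem coshDist_inv (g : GL (Fin 2) ℂ) (P Q : H3) :
    coshDist (g • P) (g • Q) = coshDist P Q := by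
  rw [← coshDist_toLift, ← coshDist_toLift, toLift_smul, toLift_smul, Lift.coshDist_smul]

theorem coshDist_symm (P Q : H3) : coshDist P Q = coshDist Q P := by
  rw [← coshDist_toLift, ← coshDist_toLift, Lift.coshDist_comm]

theorem coshDist_conj (P Q : H3) : coshDist (conjPt P) (conjPt Q) = coshDist P Q := by
  simp only [coshDist, conjPt, ← map_sub, Complex.normSq_conj]

theorem conjPt_conjPt (P : H3) : conjPt (conjPt P) = P := H3.ext (Complex.conj_conj _) rfl

theorem measurable_coshDist_pair : Measurable fun p : H3 × H3 => coshDist p.1 p.2 := by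
  have := continuous_coord_z.measurable
  have := continuous_coord_t.measurable
  simp only [coshDist]
  fun_prop

/-- The base point. -/
def base : H3 := ⟨0, 1, one_pos⟩

theorem exists_to_base (P : H3) : ∃ g : GL (Fin 2) ℂ, g • base = P := by
  refine ⟨Lift.trans (toLift P), ?_⟩
  have h := Lift.trans_smul (toLift P)
  apply liftEquiv.injective
  change toLift (Lift.trans (toLift P) • base) = toLift P
  rw [toLift_smul]
  exact h

theorem exists_swap_base (Q : H3) : ∃ g : GL (Fin 2) ℂ, g • base = Q ∧ g • Q = base := by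
  classical
  set H := (toLift Q).herm with hH
  have hdet : H.det = 1 := Lift.H3.det_herm _
  have hher := Lift.H3.isHermitian_herm (toLift Q)
  set b := H 0 1
  set e : ℂ := if b = 0 then 1 else b / (‖b‖ : ℂ) with he
  have he1 : e * conj e = 1 := by
    rw [he]; split_ifs with hb
    · simp
    · rw [map_div₀, Complex.conj_ofReal, div_mul_div_comm, Complex.mul_conj,
        Complex.normSq_eq_norm_sq, ← Complex.ofReal_mul, ← sq]
      exact div_self (by simpa using hb)
  have heb : e * e * conj b = b := by
    rw [he]; split_ifs with hb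
    · simp [hb]
    · have hn : (‖b‖ : ℂ) ≠ 0 := by simpa using hb
      rw [div_mul_div_comm, div_mul_eq_mul_div, div_eq_iff (mul_ne_zero hn hn), mul_assoc,
        Complex.mul_conj, Complex.normSq_eq_norm_sq]
      push_cast
      ring
  have h11 : H 1 0 = conj b := (hher.apply 1 0).symm
  have ha : conj (H 0 0) = H 0 0 := hher.apply 0 0
  have hd : conj (H 1 1) = H 1 1 := hher.apply 1 1
  have hdet' : H 0 0 * H 1 1 - b * conj b = 1 := by rw [← h11, ← Matrix.det_fin_two, hdet]
  set u : Matrix (Fin 2) (Fin 2) ℂ := !![0, e; -conj e, 0] with hu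
  set g0 : Matrix (Fin 2) (Fin 2) ℂ := (H + 1) * u
  set τ := H 0 0 + H 1 1 + 2 with hτ
  have hτre : 0 < τ.re := by
    have h1 : H 0 0 = (((‖Q.z‖ ^ 2 + Q.t ^ 2) / Q.t : ℝ) : ℂ) := by
      simp [hH, Lift.H3.herm, toLift, Complex.normSq_eq_norm_sq, add_comm]
    have h2 : H 1 1 = (((1 : ℝ) / Q.t : ℝ) : ℂ) := by
      simp [hH, Lift.H3.herm, toLift]
    rw [hτ, h1, h2]
    simp only [Complex.add_re, Complex.ofReal_re, Complex.re_ofNat]
    have := Q.t_pos
    positivity
  have hτreal : conj τ = τ := by rw [hτ, map_add, map_add, ha, hd, map_ofNat]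
  have hτ0 : τ ≠ 0 := fun h => by rw [h, Complex.zero_re] at hτre; exact lt_irrefl _ hτre
  have hH1 : (H + 1).det = τ := by
    simp only [Matrix.det_fin_two, Matrix.add_apply, Matrix.one_apply_eq,
      Matrix.one_apply_ne (show (0 : Fin 2) ≠ 1 by decide),
      Matrix.one_apply_ne (show (1 : Fin 2) ≠ 0 by decide), h11, hτ]
    linear_combination hdet'
  have hudet : u.det = 1 := by simp [hu, Matrix.det_fin_two, he1]
  have hgdet : g0.det = τ := by rw [Matrix.det_mul, hH1, hudet, mul_one]
  set g : GL (Fin 2) ℂ := Matrix.GeneralLinearGroup.mkOfDetNeZero g0 (hgdet ▸ hτ0)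
  have hscal : ((‖τ‖⁻¹ : ℝ) : ℂ) * τ = 1 := by
    have hre : τ = (τ.re : ℂ) := (Complex.conj_eq_iff_re.mp hτreal).symm
    rw [hre, Complex.norm_real, Real.norm_of_nonneg hτre.le, ← Complex.ofReal_mul,
      inv_mul_cancel₀ hτre.ne', Complex.ofReal_one]
  have hstar : g0ᴴ = uᴴ * (H + 1) := by
    rw [Matrix.conjTranspose_mul, Matrix.conjTranspose_add, Matrix.conjTranspose_one, hher]
  have huu : u * uᴴ = 1 := by
    ext i j
    fin_cases i <;> fin_cases j <;>
      simp [hu, Matrix.mul_apply, Fin.sum_univ_two, he1, mul_comm (conj e) e]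
  have hsq : (H + 1) * (H + 1) = τ • H := by
    ext i j
    fin_cases i <;> fin_cases j <;>
      simp [Matrix.mul_apply, Fin.sum_univ_two, h11, hτ, smul_eq_mul] <;>
      first
        | linear_combination hdet'
        | linear_combination -hdet'
        | ring
  have huH : u * H * uᴴ = H.adjugate := by
    have e2 : conj e * conj e * b = conj b := by
      have := congrArg conj heb
      simpa using this
    rw [Matrix.adjugate_fin_two]
    ext i j
    fin_cases i <;> fin_cases j <;>
      simp [hu, Matrix.mul_apply, Matrix.vecMul, dotProduct, Fin.sum_univ_two, h11]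
    · linear_combination (H 1 1) * he1
    · linear_combination heb
    · linear_combination e2
    · linear_combination (H 0 0) * he1
  have huHu : (H + 1) * (u * H * uᴴ) * (H + 1) = τ • (1 : Matrix (Fin 2) (Fin 2) ℂ) := by
    rw [huH]
    have h1 : H.adjugate * H = 1 := by rw [Matrix.adjugate_mul, hdet, one_smul]
    have h2 : H * H.adjugate = 1 := by rw [Matrix.mul_adjugate, hdet, one_smul]
    calc (H + 1) * H.adjugate * (H + 1)
        = H * H.adjugate * H + H * H.adjugate + (H.adjugate * H + H.adjugate) := by noncomm_ring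
      _ = H + 1 + (1 + H.adjugate) := by rw [h1, h2, Matrix.one_mul]
      _ = τ • 1 := by
          ext i j
          rw [Matrix.adjugate_fin_two]
          fin_cases i <;> fin_cases j <;> simp [hτ] <;> ring
  refine ⟨g, liftEquiv.injective ?_, liftEquiv.injective ?_⟩
  · change toLift (g • base) = toLift Q
    rw [toLift_smul]
    refine Lift.herm_injective ?_
    rw [Lift.herm_smul]
    have h0 : (toLift base).herm = 1 := by
      ext i j
      fin_cases i <;> fin_cases j <;> simp [Lift.H3.herm, toLift, base]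
    rw [h0, Lift.conjAct, show g.val = g0 from rfl, hgdet, hstar, Matrix.mul_one]
    simp only [g0, Matrix.mul_assoc]
    rw [← Matrix.mul_assoc u uᴴ, huu, Matrix.one_mul, hsq, smul_smul, hscal, one_smul]
  · change toLift (g • Q) = toLift base
    rw [toLift_smul]
    refine Lift.herm_injective ?_
    rw [Lift.herm_smul, ← hH]
    have h0 : (toLift base).herm = 1 := by
      ext i j
      fin_cases i <;> fin_cases j <;> simp [Lift.H3.herm, toLift, base]
    rw [h0, Lift.conjAct, show g.val = g0 from rfl, hgdet, hstar]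
    rw [show g0 * H * (uᴴ * (H + 1)) = (H + 1) * (u * H * uᴴ) * (H + 1) by
      simp only [g0, Matrix.mul_assoc], huHu, smul_smul, hscal, one_smul]

/-- Two points are exchanged by some element. -/
theorem exists_swap (P Q : H3) : ∃ g : GL (Fin 2) ℂ, g • P = Q ∧ g • Q = P := by
  obtain ⟨a, rfl⟩ := exists_to_base P
  obtain ⟨g, h1, h2⟩ := exists_swap_base (a⁻¹ • Q)
  refine ⟨a * g * a⁻¹, ?_, ?_⟩
  · rw [mul_smul, mul_smul, inv_smul_smul, h1, smul_inv_smul]
  · rw [mul_smul, mul_smul, h2]

theorem IsInvKer.symm {h : H3 → H3 → ℂ} (hh : IsInvKer h) (P Q : H3) : h P Q = h Q P := by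
  obtain ⟨g, h1, h2⟩ := exists_swap P Q
  rw [← hh.inv g P Q, h1, h2]

theorem ball_eq (P : H3) (ε : ℝ) : ball P ε = {Q | coshDist P Q ≤ Real.cosh ε} := rfl

theorem measurableSet_ball_h3 (P : H3) (ε : ℝ) : MeasurableSet (ball P ε) :=
  measurableSet_le (measurable_coshDist_pair.comp measurable_prodMk_left) measurable_const

theorem smul_ball (g : GL (Fin 2) ℂ) (P : H3) (ε : ℝ) :
    (fun Q : H3 => g • Q) ⁻¹' ball (g • P) ε = ball P ε := by
  ext Q
  simp [ball_eq, coshDist_inv]

theorem vol_ball_eq (P : H3) (ε : ℝ) : vol (ball P ε) = vol (ball base ε) := by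
  obtain ⟨g, rfl⟩ := exists_to_base P
  rw [← smul_ball g base ε,
    (measurePreserving_h3_smul g).measure_preimage (measurableSet_ball_h3 _ _).nullMeasurableSet]

theorem vol_base_ball_lt_top (ε : ℝ) : vol (ball base ε) < ⊤ := by
  rcases lt_or_ge ε 0 with hε | hε
  · rw [ball_eq, ← Real.cosh_neg]
    rw [show {Q | coshDist base Q ≤ Real.cosh (-ε)} = ball base (-ε) from rfl]
    have := (measurePreserving_liftEquiv.measure_preimage
      (Lift.measurableSet_hball (toLift base) (-ε)).nullMeasurableSet).trans_lt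
      (Lift.isCompact_hball (toLift base) (neg_pos.mpr hε)).measure_lt_top
    refine (measure_mono fun Q hQ => ?_).trans_lt this
    change Lift.coshDist (toLift base) (toLift Q) ≤ _
    rw [coshDist_toLift]
    exact hQ
  · refine (measure_mono (t := liftEquiv ⁻¹' Lift.hball (toLift base) (ε + 1)) fun Q hQ => ?_).trans_lt ?_
    · change Lift.coshDist (toLift base) (toLift Q) ≤ _
      rw [coshDist_toLift]
      exact le_trans hQ (Real.cosh_le_cosh.mpr (by rw [abs_of_nonneg hε, abs_of_nonneg (by linarith)]; linarith))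
    · rw [measurePreserving_liftEquiv.measure_preimage
        (Lift.measurableSet_hball _ _).nullMeasurableSet]
      exact (Lift.isCompact_hball _ (by linarith)).measure_lt_top

theorem vol_ball_lt_top (P : H3) (ε : ℝ) : vol (ball P ε) < ⊤ := by
  rw [vol_ball_eq]; exact vol_base_ball_lt_top ε

theorem vol_le_dist_lt_top (P : H3) (R : ℝ) : vol {Q | coshDist P Q ≤ R} < ⊤ := by
  refine (measure_mono fun Q hQ => ?_).trans_lt (vol_ball_lt_top P (Real.arcosh (max R 1)))
  rw [ball_eq, Set.mem_ofPred_eq, Real.cosh_arcosh (le_max_right _ _)]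
  exact le_trans hQ (le_max_left _ _)

theorem coshDist_ge_one (P Q : H3) : 1 ≤ coshDist P Q := by
  have := P.t_pos
  have := Q.t_pos
  have := Complex.normSq_nonneg (P.z - Q.z)
  simp only [coshDist, le_add_iff_nonneg_right]
  positivity

/-- A coarse triangle inequality. -/
theorem coshDist_le_mul (P U Q : H3) :
    coshDist P Q ≤ 1 + 32 * coshDist P U * coshDist U Q * (coshDist P U ^ 2 + coshDist U Q ^ 2) := by
  obtain ⟨g, rfl⟩ := exists_to_base U
  have key : ∀ P Q : H3, coshDist P Q ≤
      1 + 32 * coshDist P base * coshDist base Q * (coshDist P base ^ 2 + coshDist base Q ^ 2) := by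
    intro P Q
    have bound : ∀ X : H3, 1 / (2 * coshDist base X) ≤ X.t ∧ X.t ≤ 2 * coshDist base X ∧
        Complex.normSq X.z ≤ 4 * coshDist base X ^ 2 := by
      intro X
      have ht := X.t_pos
      have h1 := coshDist_ge_one base X
      have he : coshDist base X * (2 * X.t) = Complex.normSq X.z + X.t ^ 2 + 1 := by
        simp only [coshDist, base, zero_sub, Complex.normSq_neg]
        field_simp
        ring
      have := Complex.normSq_nonneg X.z
      refine ⟨?_, by nlinarith, ?_⟩
      · rw [div_le_iff₀ (by linarith)]; nlinarith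
      · nlinarith [sq_nonneg (X.t - coshDist base X)]
    obtain ⟨p1, p2, p3⟩ := bound P
    obtain ⟨q1, q2, q3⟩ := bound Q
    rw [coshDist_symm P base]
    set a := coshDist base P
    set b := coshDist base Q
    have ha : 1 ≤ a := coshDist_ge_one _ _
    have hb : 1 ≤ b := coshDist_ge_one _ _
    have hpq : 1 / (4 * a * b) ≤ P.t * Q.t := by
      refine le_trans (le_of_eq ?_) (mul_le_mul p1 q1 (by positivity) P.t_pos.le)
      field_simp
      ring
    have hn : Complex.normSq (P.z - Q.z) + (P.t - Q.t) ^ 2 ≤ 8 * (a ^ 2 + b ^ 2) * 1 +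
        4 * (a ^ 2 + b ^ 2) := by
      have h1 : Complex.normSq (P.z - Q.z) ≤ 2 * Complex.normSq P.z + 2 * Complex.normSq Q.z := by
        simp only [Complex.normSq_apply, Complex.sub_re, Complex.sub_im]
        nlinarith [sq_nonneg (P.z.re + Q.z.re), sq_nonneg (P.z.im + Q.z.im)]
      have h2 : (P.t - Q.t) ^ 2 ≤ 4 * (a ^ 2 + b ^ 2) := by
        nlinarith [mul_pos P.t_pos Q.t_pos, pow_le_pow_left₀ P.t_pos.le p2 2,
          pow_le_pow_left₀ Q.t_pos.le q2 2]
      linarith
    rw [coshDist, add_le_add_iff_left, div_le_iff₀ (by have := P.t_pos; have := Q.t_pos; positivity)]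
    have h3 : 1 ≤ 4 * a * b * (P.t * Q.t) := by
      rwa [div_le_iff₀' (by positivity)] at hpq
    nlinarith [mul_le_mul_of_nonneg_left h3 (by positivity : (0 : ℝ) ≤ a ^ 2 + b ^ 2)]
  calc coshDist P Q = coshDist (g⁻¹ • P) (g⁻¹ • Q) := (coshDist_inv g⁻¹ P Q).symm
    _ ≤ _ := key _ _
    _ = _ := by
      have e1 : coshDist (g⁻¹ • P) base = coshDist P (g • base) := by
        rw [← coshDist_inv g, smul_inv_smul]
      have e2 : coshDist base (g⁻¹ • Q) = coshDist (g • base) Q := by
        rw [← coshDist_inv g, smul_inv_smul]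
      rw [e1, e2]

end H3

end FermatAgent.LT
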