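import Mathlib
import Fermat.Agent.LT.Descent.Kernel.InvKer
import Fermat.Agent.LT.Descent.Kernel.Defs

set_option autoImplicit false

/-!
# The algebra of invariant kernels
-/

noncomputable section

open MeasureTheory Set Filter
open scoped ComplexConjugate ENNReal

namespace FermatAgent.LT.H3

theorem isInvKer_ballKer (ε : ℝ) : IsInvKer (ballKer ε) where
  measurable := by
    have : Function.uncurry (ballKer ε) =
        {p : H3 × H3 | coshDist p.1 p.2 ≤ Real.cosh ε}.indicator (fun _ => (1 : ℂ)) := by
      funext p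
      simp [ballKer, ball_eq, indicator, Function.uncurry]
    rw [this]
    exact measurable_const.indicator (measurableSet_le measurable_coshDist_pair measurable_const)
  bounded := ⟨1, fun P Q => by
    simp only [ballKer, indicator]; split_ifs <;> simp⟩
  supp := ⟨Real.cosh ε, fun P Q h => by
    by_contra hc
    exact h (indicator_of_notMem (by simpa [ball_eq] using hc) _)⟩
  inv g P Q := by
    simp [ballKer, ball_eq, indicator, coshDist_inv]
  conjInv P Q := by
    simp [ballKer, ball_eq, indicator, coshDist_conj]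

theorem integral_ballKer_mul (ε : ℝ) (P : H3) (f : H3 → ℂ) :
    ∫ Q, ballKer ε P Q * f Q ∂vol = ∫ Q in ball P ε, f Q ∂vol := by
  rw [← integral_indicator (measurableSet_ball_h3 P ε)]
  refine integral_congr_ae (Eventually.of_forall fun Q => ?_)
  by_cases hQ : Q ∈ ball P ε <;> simp [ballKer, indicator, hQ]

theorem ballKer_nonneg (ε : ℝ) (P Q : H3) :
    ballKer ε P Q = ((‖ballKer ε P Q‖ : ℝ) : ℂ) := by
  simp only [ballKer, indicator]; split_ifs <;> simp

variable {h h' h'' : H3 → H3 → ℂ}

theorem IsInvKer.measurable_row (hh : IsInvKer h) (P : H3) : Measurable (h P) :=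
  hh.measurable.comp measurable_prodMk_left

theorem IsInvKer.measurable_col (hh : IsInvKer h) (Q : H3) : Measurable fun P => h P Q :=
  hh.measurable.comp measurable_prodMk_right

/-- Uniformly bounded absolute integrals. -/
theorem IsInvKer.exists_lintegral_le (hh : IsInvKer h) :
    ∃ V : ℝ, ∀ P, ∫⁻ Q, ‖h P Q‖ₑ ∂vol ≤ ENNReal.ofReal V := by
  obtain ⟨C, hC⟩ := hh.bounded
  obtain ⟨R, hR⟩ := hh.supp
  refine ⟨max C 0 * (vol {Q | coshDist base Q ≤ R}).toReal, fun P => ?_⟩
  obtain ⟨g, rfl⟩ := exists_to_base P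
  rw [← (measurePreserving_h3_smul g).lintegral_comp (f := fun Q => ‖h (g • base) Q‖ₑ)
    (hh.measurable_row (g • base)).enorm]
  refine ((lintegral_mono (g := {Q | coshDist base Q ≤ R}.indicator
    fun _ => ENNReal.ofReal (max C 0)) fun Q => ?_).trans (lintegral_indicator_const_le _ _)).trans ?_
  · rw [hh.inv]
    by_cases h0 : h base Q = 0
    · simp [h0]
    · rw [indicator_of_mem (show Q ∈ {Q | coshDist base Q ≤ R} from hR _ _ h0), ← ofReal_norm]
      exact ENNReal.ofReal_le_ofReal ((hC _ _).trans (le_max_left _ _))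
  · rw [ENNReal.ofReal_mul (le_max_right _ _), ENNReal.ofReal_toReal (vol_le_dist_lt_top base R).ne]

theorem IsInvKer.integrable_row (hh : IsInvKer h) (P : H3) : Integrable (h P) vol := by
  obtain ⟨V, hV⟩ := hh.exists_lintegral_le
  exact ⟨(hh.measurable_row P).aestronglyMeasurable,
    hasFiniteIntegral_iff_enorm.mpr ((hV P).trans_lt ENNReal.ofReal_lt_top)⟩

theorem measurePreserving_conjPt : MeasurePreserving conjPt vol vol := by
  have hc : Measurable conjPt :=
    measurable_comap_iff.mpr ((Complex.continuous_conj.measurable.comp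
      continuous_coord_z.measurable).prodMk continuous_coord_t.measurable)
  refine ⟨hc, Measure.ext fun s hs => ?_⟩
  rw [Measure.map_apply hc hs, vol_eq (hc hs), vol_eq hs]
  have hT : MeasurePreserving (fun p : ℂ × ℝ => (conj p.1, p.2)) volume volume :=
    (Complex.conjLIE.measurePreserving).prod (MeasurePreserving.id _)
  have hemb : MeasurableEmbedding (fun p : ℂ × ℝ => (conj p.1, p.2)) :=
    (MeasurableEquiv.prodCongr Complex.conjLIE.toHomeomorph.toMeasurableEquiv
      (MeasurableEquiv.refl ℝ)).measurableEmbedding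
  rw [← hT.setLIntegral_comp_preimage_emb hemb (fun x => ENNReal.ofReal (x.2 ^ 3)⁻¹)]
  congr 2
  ext p
  constructor
  · rintro ⟨Q, hQ, hp⟩
    refine ⟨conjPt Q, by simpa [conjPt_conjPt] using hQ, ?_⟩
    simp only [coords, conjPt, Prod.ext_iff] at hp ⊢
    exact ⟨by rw [hp.1, Complex.conj_conj], hp.2⟩
  · rintro ⟨Q, hQ, hp⟩
    refine ⟨conjPt Q, by simpa [conjPt_conjPt] using hQ, ?_⟩
    simp only [coords, conjPt, Prod.ext_iff] at hp ⊢
    exact ⟨by rw [hp.1], hp.2⟩

/-- The conjugation as a measurable equivalence. -/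
def conjEquiv : H3 ≃ᵐ H3 where
  toFun := conjPt
  invFun := conjPt
  left_inv := conjPt_conjPt
  right_inv := conjPt_conjPt
  measurable_toFun := measurePreserving_conjPt.measurable
  measurable_invFun := measurePreserving_conjPt.measurable

/-- A translation as a measurable equivalence. -/
def smulEquiv (g : GL (Fin 2) ℂ) : H3 ≃ᵐ H3 where
  toFun P := g • P
  invFun P := g⁻¹ • P
  left_inv := inv_smul_smul g
  right_inv := smul_inv_smul g
  measurable_toFun := (measurePreserving_h3_smul g).measurable
  measurable_invFun := (measurePreserving_h3_smul g⁻¹).measurable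

theorem IsInvKer.kConv (hh : IsInvKer h) (hh' : IsInvKer h') : IsInvKer (kConv h h') where
  measurable := (StronglyMeasurable.integral_prod_right'
    (f := fun z : (H3 × H3) × H3 => h z.1.1 z.2 * h' z.2 z.1.2)
    ((hh.measurable.comp ((measurable_fst.comp measurable_fst).prodMk measurable_snd)).mul
      (hh'.measurable.comp (measurable_snd.prodMk
        (measurable_snd.comp measurable_fst)))).stronglyMeasurable).measurable
  bounded := by
    obtain ⟨C, hC⟩ := hh'.bounded
    obtain ⟨V, hV⟩ := hh.exists_lintegral_le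
    refine ⟨|V| * |C|, fun P Q => ?_⟩
    refine (norm_integral_le_lintegral_norm _).trans ?_
    refine (ENNReal.toReal_mono ENNReal.ofReal_ne_top (b := ENNReal.ofReal (|V| * |C|)) ?_).trans
      (ENNReal.toReal_ofReal (by positivity)).le
    calc ∫⁻ U, ENNReal.ofReal ‖h P U * h' U Q‖ ∂vol
        ≤ ∫⁻ U, ‖h P U‖ₑ * ENNReal.ofReal |C| ∂vol := lintegral_mono fun U => by
          rw [norm_mul, ENNReal.ofReal_mul (norm_nonneg _), ofReal_norm]
          gcongr
          exact (hC _ _).trans (le_abs_self C)
      _ = (∫⁻ U, ‖h P U‖ₑ ∂vol) * ENNReal.ofReal |C| :=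
          lintegral_mul_const _ (hh.measurable_row P).enorm
      _ ≤ ENNReal.ofReal |V| * ENNReal.ofReal |C| := by
          gcongr; exact (hV P).trans (ENNReal.ofReal_le_ofReal (le_abs_self V))
      _ = _ := (ENNReal.ofReal_mul (abs_nonneg V)).symm
  supp := by
    obtain ⟨R, hR⟩ := hh.supp
    obtain ⟨R', hR'⟩ := hh'.supp
    refine ⟨1 + 32 * R * R' * (R ^ 2 + R' ^ 2), fun P Q hne => ?_⟩
    obtain ⟨U, hU⟩ : ∃ U, h P U * h' U Q ≠ 0 := by
      by_contra hc
      push Not at hc
      exact hne (by simp [H3.kConv, hc])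
    have h1 := hR _ _ (left_ne_zero_of_mul hU)
    have h2 := hR' _ _ (right_ne_zero_of_mul hU)
    have := coshDist_ge_one P U
    have := coshDist_ge_one U Q
    refine (coshDist_le_mul P U Q).trans ?_
    have : (0 : ℝ) ≤ R := by linarith
    have : (0 : ℝ) ≤ R' := by linarith
    gcongr
  inv g P Q := by
    simp only [H3.kConv]
    rw [← (measurePreserving_h3_smul g).integral_comp (smulEquiv g).measurableEmbedding
      (fun U => h (g • P) U * h' U (g • Q))]
    simp [hh.inv, hh'.inv]
  conjInv P Q := by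
    simp only [H3.kConv]
    rw [← measurePreserving_conjPt.integral_comp conjEquiv.measurableEmbedding
      (fun U => h (conjPt P) U * h' U (conjPt Q))]
    simp [hh.conjInv, hh'.conjInv]

theorem kConv_comm (hh : IsInvKer h) (hh' : IsInvKer h') : kConv h h' = kConv h' h := by
  funext P Q
  rw [(hh'.kConv hh).symm P Q]
  simp only [kConv]
  refine integral_congr_ae (Eventually.of_forall fun U => ?_)
  simp only [hh.symm P U, hh'.symm U Q]
  ring

theorem kConv_assoc (hh : IsInvKer h) (hh' : IsInvKer h') (hh'' : IsInvKer h'') :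
    kConv (kConv h h') h'' = kConv h (kConv h' h'') := by
  funext P Q
  simp only [kConv, ← integral_mul_const, ← integral_const_mul, mul_assoc]
  obtain ⟨C, hC⟩ := hh''.bounded
  obtain ⟨V, hV⟩ := hh'.exists_lintegral_le
  obtain ⟨W, hW⟩ := hh.exists_lintegral_le
  refine integral_integral_swap ?_
  refine Integrable.swap (f := fun p : H3 × H3 => h P p.1 * (h' p.1 p.2 * h'' p.2 Q)) ?_
  have hm : Measurable fun p : H3 × H3 => h P p.1 * (h' p.1 p.2 * h'' p.2 Q) :=
    ((hh.measurable_row P).comp measurable_fst).mul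
      (hh'.measurable.mul ((hh''.measurable_col Q).comp measurable_snd))
  refine ⟨hm.aestronglyMeasurable, ?_⟩
  rw [hasFiniteIntegral_iff_enorm, lintegral_prod _ hm.enorm.aemeasurable]
  refine lt_of_le_of_lt (lintegral_mono (g := fun U => ‖h P U‖ₑ *
    (ENNReal.ofReal V * ENNReal.ofReal |C|)) fun U => ?_) ?_
  · calc ∫⁻ X, ‖h P U * (h' U X * h'' X Q)‖ₑ ∂vol
        ≤ ∫⁻ X, ‖h P U‖ₑ * (‖h' U X‖ₑ * ENNReal.ofReal |C|) ∂vol := lintegral_mono fun X => by
          rw [enorm_mul, enorm_mul]
          gcongr
          rw [← ofReal_norm]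
          exact ENNReal.ofReal_le_ofReal ((hC _ _).trans (le_abs_self C))
      _ = ‖h P U‖ₑ * ((∫⁻ X, ‖h' U X‖ₑ ∂vol) * ENNReal.ofReal |C|) := by
          rw [lintegral_const_mul _ ((hh'.measurable_row U).enorm.mul_const _),
            lintegral_mul_const _ (hh'.measurable_row U).enorm]
      _ ≤ ‖h P U‖ₑ * (ENNReal.ofReal V * ENNReal.ofReal |C|) :=
          mul_le_mul_right (mul_le_mul_left (hV U) _) _
  · rw [lintegral_mul_const _ (hh.measurable_row P).enorm]
    exact ENNReal.mul_lt_top ((hW P).trans_lt ENNReal.ofReal_lt_top)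
      (ENNReal.mul_lt_top ENNReal.ofReal_lt_top ENNReal.ofReal_lt_top)

theorem isInvKer_ballWord : ∀ l : List ℝ, IsInvKer (ballWord l)
  | [] => isInvKer_ballKer 1
  | ε :: l => (isInvKer_ballKer ε).kConv (isInvKer_ballWord l)

theorem kConv_ballWord : ∀ l l' : List ℝ,
    kConv (ballWord l) (ballWord l') = ballWord (l ++ 1 :: l')
  | [], l' => rfl
  | ε :: l, l' => by
    change kConv (kConv (ballKer ε) (ballWord l)) (ballWord l') = kConv (ballKer ε) _
    rw [kConv_assoc (isInvKer_ballKer ε) (isInvKer_ballWord l) (isInvKer_ballWord l'),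
      kConv_ballWord l l']
    rfl

theorem ballWord_perm {l l' : List ℝ} (hp : l.Perm l') : ballWord l = ballWord l' := by
  induction hp with
  | nil => rfl
  | cons x _ ih => exact congrArg (kConv (ballKer x)) ih
  | swap x y l =>
    change kConv (ballKer y) (kConv (ballKer x) (ballWord l)) =
      kConv (ballKer x) (kConv (ballKer y) (ballWord l))
    rw [← kConv_assoc (isInvKer_ballKer y) (isInvKer_ballKer x) (isInvKer_ballWord l),
      kConv_comm (isInvKer_ballKer y) (isInvKer_ballKer x),
      kConv_assoc (isInvKer_ballKer x) (isInvKer_ballKer y) (isInvKer_ballWord l)]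
  | trans _ _ ih ih' => exact ih.trans ih'

theorem conj_ballWord (l : List ℝ) (P Q : H3) : conj (ballWord l P Q) = ballWord l P Q := by
  induction l generalizing P Q with
  | nil => rw [ballWord, ballKer_nonneg, Complex.conj_ofReal]
  | cons ε l ih =>
    change conj (∫ U, _ ∂vol) = ∫ U, _ ∂vol
    rw [← integral_conj]
    refine integral_congr_ae (Eventually.of_forall fun U => ?_)
    simp only [map_mul, ih]
    rw [ballKer_nonneg, Complex.conj_ofReal]

end FermatAgent.LT.H3
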